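import Fermat.Agent.FLTRegB.Descent

set_option linter.unusedSectionVars false

namespace Fermat.Agent.FLTRegB

open Finset

section abstract

variable {O : Type*} [CommRing O] [IsDomain O] {p : ℕ} [hp : Fact p.Prime] {ζ : O}

namespace CycData

variable (D : CycData O p ζ)

include D

/-- No solutions of the generalised equation. -/
theorem no_sol [IsPrincipalIdealRing O] (hodd : Odd p)
    (hK : ∀ u : Oˣ, (∃ m : ℤ, (p : O) ∣ (u : O) - (m : O)) → ∃ v : Oˣ, u = v ^ p) :
    ∀ n : ℕ, 1 ≤ n → ∀ (x y z : O) (ε : Oˣ), ¬ IsSol ζ p n x y z ε := by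
  intro n
  induction n with
  | zero => intro h; omega
  | succ k ih =>
    intro _ x y z ε hsol
    obtain ⟨y', hsol', h2⟩ := D.exists_twist hodd (by omega) hsol
    obtain ⟨hk2, x', y'', z', ε', hsol''⟩ := D.descent_step hodd hK (by omega) hsol' h2
    exact ih (by omega) x' y'' z' ε' (by simpa using hsol'')

/-- Case II for rational integers, abstract version. -/
theorem caseII_abstract [IsPrincipalIdealRing O] (hodd : Odd p)
    (hK : ∀ u : Oˣ, (∃ m : ℤ, (p : O) ∣ (u : O) - (m : O)) → ∃ v : Oˣ, u = v ^ p)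
    {a b c : ℤ} (hab : IsCoprime a b) (hc : c ≠ 0) (hpc : (p : ℤ) ∣ c) :
    a ^ p + b ^ p ≠ c ^ p := by
  intro heq
  have hpZ : Prime (p : ℤ) := Nat.prime_iff_prime_int.mp hp.out
  -- p ∤ a, p ∤ b
  have hpa : ¬ (p : ℤ) ∣ a := by
    intro h
    have h1 : (p : ℤ) ∣ b ^ p := by
      have h2 : b ^ p = c ^ p - a ^ p := by rw [← heq]; ring
      rw [h2]
      exact dvd_sub (dvd_pow hpc hp.out.ne_zero) (dvd_pow h hp.out.ne_zero)
    exact hpZ.not_isUnit (hab.isUnit_of_dvd' h (hpZ.dvd_of_dvd_pow h1))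
  have hpb : ¬ (p : ℤ) ∣ b := by
    intro h
    have h1 : (p : ℤ) ∣ a ^ p := by
      have h2 : a ^ p = c ^ p - b ^ p := by rw [← heq]; ring
      rw [h2]
      exact dvd_sub (dvd_pow hpc hp.out.ne_zero) (dvd_pow h hp.out.ne_zero)
    exact hpZ.not_isUnit (hab.isUnit_of_dvd' (hpZ.dvd_of_dvd_pow h1) h)
  -- c = p^k c0
  have hfin : FiniteMultiplicity (p : ℤ) c := by
    rw [Int.finiteMultiplicity_iff]
    exact ⟨by simpa using hp.out.ne_one, hc⟩
  obtain ⟨c0, hc0, hpc0⟩ := hfin.exists_eq_pow_mul_and_not_dvd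
  set k := multiplicity (p : ℤ) c with hk
  have hk1 : 1 ≤ k := by
    by_contra hlt
    have hk0 : k = 0 := by omega
    rw [hk0, pow_zero, one_mul] at hc0
    exact hpc0 (hc0 ▸ hpc)
  obtain ⟨u, hu⟩ := D.assoc
  have hsol : IsSol ζ p ((p - 1) * k) (a : O) (b : O) (c0 : O) (u ^ (k * p)) := by
    refine ⟨?_, ?_, ?_, ?_, ?_⟩
    · rwa [D.pi_dvd_int_iff]
    · rwa [D.pi_dvd_int_iff]
    · rwa [D.pi_dvd_int_iff]
    · exact hab.map (Int.castRingHom O)
    · have h3 : ((a ^ p + b ^ p : ℤ) : O) = ((c ^ p : ℤ) : O) := by rw [heq]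
      push_cast at h3
      rw [h3, hc0]
      push_cast
      rw [← hu]
      ring
  have hn : 1 ≤ (p - 1) * k := by
    have : 1 ≤ p - 1 := by have := hp.out.two_le; omega
    exact Nat.one_le_iff_ne_zero.mpr (Nat.mul_ne_zero (by omega) (by omega))
  exact D.no_sol hodd hK _ hn _ _ _ _ hsol

end CycData

end abstract

section numberfield

open NumberField

variable {p : ℕ} [hp : Fact p.Prime] {K : Type*} [Field K] [NumberField K]
  [IsCyclotomicExtension {p} ℚ K]

/-- the cyclotomic data of the ring of integers of the `p`-th cyclotomic field. -/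
theorem cycData_ringOfIntegers :
    CycData (𝓞 K) p (IsCyclotomicExtension.zeta_spec p ℚ K).toInteger := by
  set hζ := IsCyclotomicExtension.zeta_spec p ℚ K with hζdef
  refine ⟨hζ.toInteger_isPrimitiveRoot, hζ.zeta_sub_one_prime',
    IsCyclotomicExtension.Rat.associated_zeta_sub_one_pow_prime p hζ, ?_⟩
  intro x
  have htop : Algebra.adjoin ℤ {hζ.toInteger} = ⊤ := by
    have := hζ.integralPowerBasis.adjoin_gen_eq_top
    rwa [hζ.integralPowerBasis_gen] at this
  have hx : x ∈ Algebra.adjoin ℤ {hζ.toInteger} := by rw [htop]; trivial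
  induction hx using Algebra.adjoin_induction with
  | mem y hy =>
    rw [Set.mem_singleton_iff] at hy
    exact ⟨1, by rw [hy]; simp⟩
  | algebraMap r => exact ⟨r, by simp⟩
  | add y z _ _ hy hz =>
    obtain ⟨m, hm⟩ := hy
    obtain ⟨n, hn⟩ := hz
    refine ⟨m + n, ?_⟩
    have : y + z - ((m + n : ℤ) : 𝓞 K) = (y - m) + (z - n) := by push_cast; ring
    rw [this]; exact dvd_add hm hn
  | mul y z _ _ hy hz =>
    obtain ⟨m, hm⟩ := hy
    obtain ⟨n, hn⟩ := hz
    refine ⟨m * n, ?_⟩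
    have : y * z - ((m * n : ℤ) : 𝓞 K) = y * (z - n) + n * (y - m) := by push_cast; ring
    rw [this]; exact dvd_add (Dvd.dvd.mul_left hn _) (Dvd.dvd.mul_left hm _)

/-- Case II of Fermat's last theorem for a prime `p` such that the `p`-th cyclotomic ring of
integers is a PID satisfying Kummer's lemma. -/
theorem caseII (hp2 : p ≠ 2) [IsPrincipalIdealRing (𝓞 K)]
    (hK : ∀ u : (𝓞 K)ˣ, (∃ n : ℤ, ((p : ℕ) : 𝓞 K) ∣ (u : 𝓞 K) - n) → ∃ v : (𝓞 K)ˣ, u = v ^ p)
    {a b c : ℤ} (hab : IsCoprime a b) (hc : c ≠ 0) (hpc : (p : ℤ) ∣ c) :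
    a ^ p + b ^ p ≠ c ^ p :=
  (cycData_ringOfIntegers (p := p) (K := K)).caseII_abstract (hp.out.odd_of_ne_two hp2) hK hab hc hpc

end numberfield

end Fermat.Agent.FLTRegB
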