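import Mathlib

/-!
Backup implementation (helper95) of the Kummer descent ("case II") for a cyclotomic PID,
written abstractly over a principal ideal domain `O` carrying a primitive `p`-th root of unity
`ζ` such that `ζ - 1` is prime, `(ζ - 1)^(p-1)` is associated to `p` and every element of `O` is
congruent to a rational integer modulo `ζ - 1`.
-/

set_option linter.unusedSectionVars false

namespace Fermat.Agent.FLTRegB

open Finset

/-- Abstract cyclotomic data on a domain. -/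
structure CycData (O : Type*) [CommRing O] (p : ℕ) (ζ : O) : Prop where
  prim : IsPrimitiveRoot ζ p
  prime_pi : Prime (ζ - 1)
  assoc : Associated ((ζ - 1) ^ (p - 1)) (p : O)
  modpi : ∀ x : O, ∃ m : ℤ, (ζ - 1) ∣ x - (m : O)

variable {O : Type*} [CommRing O] [IsDomain O] {p : ℕ} [hp : Fact p.Prime] {ζ : O}

namespace CycData

variable (D : CycData O p ζ)

include D

lemma zeta_pow_p : ζ ^ p = 1 := D.prim.pow_eq_one

lemma isUnit_zeta : IsUnit ζ := D.prim.isUnit hp.out.ne_zero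

lemma pi_ne_zero : ζ - 1 ≠ 0 := D.prime_pi.ne_zero

lemma pi_dvd_zeta_pow_sub_one (i : ℕ) : (ζ - 1) ∣ ζ ^ i - 1 := by
  simpa using sub_dvd_pow_sub_pow ζ 1 i

lemma zeta_pow_sub_one (i : ℕ) : ζ ^ i - 1 = (ζ - 1) * ∑ j ∈ range i, ζ ^ j :=
  (mul_geom_sum ζ i).symm

lemma pi_dvd_geom_sub (i : ℕ) : (ζ - 1) ∣ (∑ j ∈ range i, ζ ^ j) - (i : O) := by
  have : (∑ j ∈ range i, ζ ^ j) - (i : O) = ∑ j ∈ range i, (ζ ^ j - 1) := by
    simp [Finset.sum_sub_distrib]
  rw [this]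
  exact Finset.dvd_sum fun j _ => D.pi_dvd_zeta_pow_sub_one j

lemma pi_dvd_p : (ζ - 1) ∣ (p : O) := by
  have h1 : (ζ - 1) ∣ (ζ - 1) ^ (p - 1) :=
    dvd_pow_self _ (by have := hp.out.two_le; omega)
  exact h1.trans D.assoc.dvd

lemma p_dvd_pi_pow {m : ℕ} (hm : p - 1 ≤ m) : (p : O) ∣ (ζ - 1) ^ m :=
  D.assoc.symm.dvd.trans (pow_dvd_pow _ hm)

lemma pi_dvd_int_iff (m : ℤ) : (ζ - 1) ∣ (m : O) ↔ (p : ℤ) ∣ m := by
  constructor
  · intro h
    by_contra hpm
    have hcop : IsCoprime (p : ℤ) m := by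
      have hpi : Prime (p : ℤ) := Nat.prime_iff_prime_int.mp hp.out
      exact (Prime.coprime_iff_not_dvd hpi).2 hpm
    obtain ⟨a, b, hab⟩ := hcop
    have h2 : ((a * p + b * m : ℤ) : O) = 1 := by rw [hab]; simp
    have h3 : (ζ - 1) ∣ ((a * p + b * m : ℤ) : O) := by
      push_cast
      exact dvd_add (Dvd.dvd.mul_left D.pi_dvd_p _) (Dvd.dvd.mul_left h _)
    rw [h2] at h3
    exact D.prime_pi.not_isUnit (isUnit_of_dvd_one h3)
  · rintro ⟨k, rfl⟩
    push_cast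
    exact Dvd.dvd.mul_right D.pi_dvd_p _

lemma isUnit_geom {i : ℕ} (hi0 : 0 < i) (hip : i < p) : IsUnit (∑ j ∈ range i, ζ ^ j) := by
  apply D.prim.geom_sum_isUnit hp.out.two_le
  exact ((Nat.Prime.coprime_iff_not_dvd hp.out).2 (Nat.not_dvd_of_pos_of_lt hi0 hip)).symm

/-- every `p`-th power is congruent to an integer mod `p`. -/
lemma pow_p_mod_p (x : O) : ∃ m : ℤ, (p : O) ∣ x ^ p - (m : O) := by
  obtain ⟨m, t, ht⟩ := D.modpi x
  refine ⟨m ^ p, ?_⟩
  have hx : x = (m : O) + (ζ - 1) * t := by rw [← ht]; ring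
  obtain ⟨r, hr⟩ := exists_add_pow_prime_eq hp.out (m : O) ((ζ - 1) * t)
  have h1 : (p : O) ∣ ((ζ - 1) * t) ^ p := by
    rw [mul_pow]
    exact Dvd.dvd.mul_right (D.p_dvd_pi_pow (by omega)) _
  have : x ^ p - ((m ^ p : ℤ) : O) = ((ζ - 1) * t) ^ p + (p : O) * (m : O) * ((ζ - 1) * t) * r := by
    rw [hx, hr]; push_cast; ring
  rw [this]
  exact dvd_add h1 ⟨(m : O) * ((ζ - 1) * t) * r, by ring⟩

end CycData

end Fermat.Agent.FLTRegB
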