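import Fermat.Agent.FLTRegB.Core

set_option linter.unusedSectionVars false

namespace Fermat.Agent.FLTRegB

open Finset

variable {O : Type*} [CommRing O] [IsDomain O] {p : ℕ} [hp : Fact p.Prime] {ζ : O}

/-- product formula over `range p`. -/
lemma pow_add_pow_eq_prod_range (hζ : IsPrimitiveRoot ζ p) (hodd : Odd p) (x y : O) :
    x ^ p + y ^ p = ∏ i ∈ range p, (x + ζ ^ i * y) := by
  classical
  rw [hζ.pow_add_pow_eq_prod_add_mul x y hodd]
  have himg : (range p).image (fun i => ζ ^ i) = Polynomial.nthRootsFinset p (1 : O) := by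
    apply Finset.eq_of_subset_of_card_le
    · intro μ hμ
      obtain ⟨i, -, rfl⟩ := Finset.mem_image.mp hμ
      rw [Polynomial.mem_nthRootsFinset hp.out.pos]
      rw [← pow_mul, mul_comm, pow_mul, hζ.pow_eq_one, one_pow]
    · rw [hζ.card_nthRootsFinset, Finset.card_image_of_injOn, Finset.card_range]
      intro i hi j hj hij
      exact hζ.pow_inj (Finset.mem_range.mp hi) (Finset.mem_range.mp hj) hij
  rw [← himg, Finset.prod_image]
  intro i hi j hj hij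
  exact hζ.pow_inj (Finset.mem_range.mp hi) (Finset.mem_range.mp hj) hij

/-- A solution of the generalised Fermat equation with parameter `n`. -/
def IsSol (ζ : O) (p n : ℕ) (x y z : O) (ε : Oˣ) : Prop :=
  ¬ (ζ - 1) ∣ x ∧ ¬ (ζ - 1) ∣ y ∧ ¬ (ζ - 1) ∣ z ∧ IsCoprime x y ∧
    x ^ p + y ^ p = ε * (ζ - 1) ^ (p * n) * z ^ p

namespace CycData

variable (D : CycData O p ζ)

include D

/-- `π` divides every factor `x + ζ^i y`. -/
lemma pi_dvd_factor (hodd : Odd p) {n : ℕ} (hn : 1 ≤ n) {x y z : O} {ε : Oˣ}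
    (h : x ^ p + y ^ p = ε * (ζ - 1) ^ (p * n) * z ^ p) (i : ℕ) :
    (ζ - 1) ∣ x + ζ ^ i * y := by
  have hdvd : (ζ - 1) ∣ ∏ i ∈ range p, (x + ζ ^ i * y) := by
    rw [← pow_add_pow_eq_prod_range D.prim hodd, h]
    apply Dvd.dvd.mul_right
    apply Dvd.dvd.mul_left
    exact dvd_pow_self _ (by have := hp.out.pos; positivity)
  obtain ⟨i0, -, hi0⟩ := D.prime_pi.exists_mem_finset_dvd hdvd
  have : x + ζ ^ i * y = (x + ζ ^ i0 * y) + ((ζ ^ i - 1) - (ζ ^ i0 - 1)) * y := by ring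
  rw [this]
  exact dvd_add hi0 (Dvd.dvd.mul_right
    (dvd_sub (D.pi_dvd_zeta_pow_sub_one i) (D.pi_dvd_zeta_pow_sub_one i0)) _)

/-- One can twist `y` by a power of `ζ` so that `π^2 ∣ x + y`. -/
lemma exists_twist (hodd : Odd p) {n : ℕ} (hn : 1 ≤ n) {x y z : O} {ε : Oˣ}
    (h : IsSol ζ p n x y z ε) :
    ∃ y' : O, IsSol ζ p n x y' z ε ∧ (ζ - 1) ^ 2 ∣ x + y' := by
  obtain ⟨hx, hy, hz, hxy, heq⟩ := h
  -- π ∣ x + y
  have h0 : (ζ - 1) ∣ x + y := by simpa using D.pi_dvd_factor hodd hn heq 0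
  obtain ⟨t, ht⟩ := h0
  obtain ⟨mt, hmt⟩ := D.modpi t
  obtain ⟨my, hmy⟩ := D.modpi y
  have hmy' : ¬ (p : ℤ) ∣ my := by
    rw [← D.pi_dvd_int_iff]
    intro hh
    exact hy (by simpa using dvd_add hmy hh)
  have : NeZero p := ⟨hp.out.ne_zero⟩
  have hmy0 : (my : ZMod p) ≠ 0 := by
    rwa [Ne, ZMod.intCast_zmod_eq_zero_iff_dvd]
  set c : ZMod p := -(mt : ZMod p) * (my : ZMod p)⁻¹ with hc
  set i : ℕ := c.val with hi
  have hival : ((i : ℕ) : ZMod p) = c := by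
    rw [hi]; exact ZMod.natCast_zmod_val c
  have hdiv : (p : ℤ) ∣ mt + i * my := by
    rw [← ZMod.intCast_zmod_eq_zero_iff_dvd]
    push_cast
    rw [hival, hc]
    field_simp
    ring
  have hdiv' : (ζ - 1) ∣ ((mt + i * my : ℤ) : O) := (D.pi_dvd_int_iff _).2 hdiv
  refine ⟨ζ ^ i * y, ⟨hx, ?_, hz, ?_, ?_⟩, ?_⟩
  · intro hh
    exact hy ((D.isUnit_zeta.pow i).dvd_mul_left.mp hh)
  · exact (isCoprime_mul_unit_left_right (D.isUnit_zeta.pow i) x y).2 hxy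
  · rw [mul_pow, ← pow_mul, mul_comm i p, pow_mul, D.zeta_pow_p, one_pow, one_mul, heq]
  · -- x + ζ^i y = π (t + g_i y)
    have e1 : x + ζ ^ i * y = (ζ - 1) * (t + (∑ j ∈ range i, ζ ^ j) * y) := by
      have := D.zeta_pow_sub_one i
      calc x + ζ ^ i * y = (x + y) + (ζ ^ i - 1) * y := by ring
        _ = (ζ - 1) * t + ((ζ - 1) * ∑ j ∈ range i, ζ ^ j) * y := by rw [ht, this]
        _ = _ := by ring
    rw [e1, pow_two]
    apply mul_dvd_mul_left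
    have e2 : t + (∑ j ∈ range i, ζ ^ j) * y =
        (t - mt) + ((∑ j ∈ range i, ζ ^ j) - (i : O)) * y + (i : O) * (y - my)
          + ((mt + i * my : ℤ) : O) := by
      push_cast; ring
    rw [e2]
    exact dvd_add (dvd_add (dvd_add hmt (Dvd.dvd.mul_right (D.pi_dvd_geom_sub i) _))
      (Dvd.dvd.mul_left hmy _)) hdiv'

/-- The descent step. -/
lemma descent_step [IsPrincipalIdealRing O] (hodd : Odd p)
    (hK : ∀ u : Oˣ, (∃ m : ℤ, (p : O) ∣ (u : O) - (m : O)) → ∃ v : Oˣ, u = v ^ p)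
    {n : ℕ} (hn : 1 ≤ n) {x y z : O} {ε : Oˣ}
    (h : IsSol ζ p n x y z ε) (h2 : (ζ - 1) ^ 2 ∣ x + y) :
    2 ≤ n ∧ ∃ (x' y' z' : O) (ε' : Oˣ), IsSol ζ p (n - 1) x' y' z' ε' := by
  classical
  obtain ⟨hx, hy, hz, hxy, heq⟩ := h
  have hp3 : 3 ≤ p := by
    have h2 := hp.out.two_le
    rcases hodd with ⟨k, hk⟩
    omega
  have hX : ∀ i, ∃ X, x + ζ ^ i * y = (ζ - 1) * X := fun i => D.pi_dvd_factor hodd hn heq i
  choose X hXdef using hX
  -- π ∣ X 0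
  have hX0 : (ζ - 1) ∣ X 0 := by
    obtain ⟨w, hw⟩ := h2
    have h3 : (ζ - 1) * X 0 = (ζ - 1) * ((ζ - 1) * w) := by
      rw [← hXdef 0, pow_zero, one_mul, hw]; ring
    exact ⟨w, mul_left_cancel₀ D.pi_ne_zero h3⟩
  -- π ∤ X i for 0 < i < p
  have hXi : ∀ i, 0 < i → i < p → ¬ (ζ - 1) ∣ X i := by
    intro i hi0 hip hdiv
    have e : X i = X 0 + (∑ j ∈ range i, ζ ^ j) * y := by
      apply mul_left_cancel₀ D.pi_ne_zero
      have h0 := hXdef 0
      rw [pow_zero, one_mul] at h0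
      rw [← hXdef i, mul_add, ← h0, ← mul_assoc, ← D.zeta_pow_sub_one i]; ring
    rw [e] at hdiv
    have h4 : (ζ - 1) ∣ (∑ j ∈ range i, ζ ^ j) * y := (dvd_add_right hX0).mp hdiv
    exact hy ((D.isUnit_geom hi0 hip).dvd_mul_left.mp h4)
  -- pairwise coprime
  have hcop : ∀ i j, i < j → j < p → IsCoprime (X i) (X j) := by
    intro i j hij hjp
    set g := ∑ k ∈ range (j - i), ζ ^ k with hgdef
    have hg : IsUnit g := D.isUnit_geom (by omega) (by omega)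
    have hu : IsUnit (ζ ^ i * g) := (D.isUnit_zeta.pow i).mul hg
    have hzz := D.zeta_pow_sub_one (j - i)
    have hpow : ζ ^ j = ζ ^ i * ζ ^ (j - i) := by
      rw [← pow_add]; congr 1; omega
    have e1 : X j - X i = ζ ^ i * g * y := by
      apply mul_left_cancel₀ D.pi_ne_zero
      rw [mul_sub, ← hXdef j, ← hXdef i]
      calc x + ζ ^ j * y - (x + ζ ^ i * y) = ζ ^ i * (ζ ^ (j - i) - 1) * y := by rw [hpow]; ring
        _ = _ := by rw [hzz]; ring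
    have e2 : ζ ^ j * X i - ζ ^ i * X j = ζ ^ i * g * x := by
      apply mul_left_cancel₀ D.pi_ne_zero
      have h5 : (ζ - 1) * (ζ ^ j * X i - ζ ^ i * X j) =
          ζ ^ j * ((ζ - 1) * X i) - ζ ^ i * ((ζ - 1) * X j) := by ring
      rw [h5, ← hXdef i, ← hXdef j]
      calc ζ ^ j * (x + ζ ^ i * y) - ζ ^ i * (x + ζ ^ j * y)
          = ζ ^ i * (ζ ^ (j - i) - 1) * x := by rw [hpow]; ring
        _ = _ := by rw [hzz]; ring
    obtain ⟨a, b, hab⟩ := hxy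
    obtain ⟨u, hu'⟩ := hu
    refine ⟨↑u⁻¹ * (a * ζ ^ j - b), ↑u⁻¹ * (b - a * ζ ^ i), ?_⟩
    have h6 : ↑u⁻¹ * (a * ζ ^ j - b) * X i + ↑u⁻¹ * (b - a * ζ ^ i) * X j
        = ↑u⁻¹ * (a * (ζ ^ j * X i - ζ ^ i * X j) + b * (X j - X i)) := by ring
    rw [h6, e1, e2, ← hu']
    have h7 : (↑u⁻¹ : O) * (a * (↑u * x) + b * (↑u * y)) = (↑u⁻¹ * ↑u) * (a * x + b * y) := by ring
    rw [h7, hab, Units.inv_mul, one_mul]
  -- the product of the X i
  set m := p * (n - 1) with hm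
  have hpn : p * n = p + m := by
    rw [hm]; obtain ⟨k, rfl⟩ : ∃ k, n = k + 1 := ⟨n - 1, by omega⟩
    simp; ring
  have hprod : ∏ i ∈ range p, X i = ε * (ζ - 1) ^ m * z ^ p := by
    have h1 : ∏ i ∈ range p, (x + ζ ^ i * y) = (ζ - 1) ^ p * ∏ i ∈ range p, X i := by
      rw [Finset.prod_congr rfl (fun i _ => hXdef i), Finset.prod_mul_distrib, Finset.prod_const,
        Finset.card_range]
    rw [← pow_add_pow_eq_prod_range D.prim hodd, heq] at h1
    apply mul_left_cancel₀ (pow_ne_zero p D.pi_ne_zero)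
    rw [← h1, hpn, pow_add]; ring
  have h0mem : 0 ∈ range p := Finset.mem_range.mpr hp.out.pos
  -- n ≥ 2
  have hn2 : 2 ≤ n := by
    by_contra hlt
    have hn1 : n = 1 := by omega
    have hm0 : m = 0 := by rw [hm, hn1]; simp
    have h8 : (ζ - 1) ∣ ∏ i ∈ range p, X i := hX0.trans (Finset.dvd_prod_of_mem X h0mem)
    rw [hprod, hm0, pow_zero, mul_one] at h8
    exact hz (D.prime_pi.dvd_of_dvd_pow ((ε.isUnit.dvd_mul_left).mp h8))
  refine ⟨hn2, ?_⟩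
  have hsplit : X 0 * ∏ i ∈ (range p).erase 0, X i = ε * (ζ - 1) ^ m * z ^ p := by
    rw [Finset.mul_prod_erase _ _ h0mem, hprod]
  have hrest : ¬ (ζ - 1) ∣ ∏ i ∈ (range p).erase 0, X i := by
    intro hd
    obtain ⟨i, hi, hdi⟩ := D.prime_pi.exists_mem_finset_dvd hd
    rw [Finset.mem_erase, Finset.mem_range] at hi
    exact hXi i (Nat.pos_of_ne_zero hi.1) hi.2 hdi
  have hpowdvd : (ζ - 1) ^ m ∣ X 0 := by
    apply D.prime_pi.pow_dvd_of_dvd_mul_right m hrest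
    rw [hsplit]; exact ⟨ε * z ^ p, by ring⟩
  obtain ⟨Y0, hY0⟩ := hpowdvd
  have hY : Y0 * ∏ i ∈ (range p).erase 0, X i = ε * z ^ p := by
    apply mul_left_cancel₀ (pow_ne_zero m D.pi_ne_zero)
    rw [← mul_assoc, ← hY0, hsplit]; ring
  have hY0pi : ¬ (ζ - 1) ∣ Y0 := by
    intro hd
    have h9 : (ζ - 1) ∣ ε * z ^ p := by rw [← hY]; exact Dvd.dvd.mul_right hd _
    exact hz (D.prime_pi.dvd_of_dvd_pow ((ε.isUnit.dvd_mul_left).mp h9))
  have hcopY : ∀ j, 0 < j → j < p → IsCoprime (X j) Y0 := by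
    intro j hj0 hjp
    have h10 : IsCoprime (X 0) (X j) := hcop 0 j hj0 hjp
    rw [hY0] at h10
    exact (h10.of_mul_left_right).symm
  -- p-th powers
  have hpowY0 : ∃ d, Associated (d ^ p) Y0 := by
    have hc : IsCoprime Y0 (∏ i ∈ (range p).erase 0, X i) := by
      apply IsCoprime.prod_right
      intro i hi
      rw [Finset.mem_erase, Finset.mem_range] at hi
      exact (hcopY i (Nat.pos_of_ne_zero hi.1) hi.2).symm
    exact exists_associated_pow_of_associated_pow_mul (c := z) hc ⟨ε, by rw [hY]; ring⟩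
  have hpowX : ∀ j, 0 < j → j < p → ∃ d, Associated (d ^ p) (X j) := by
    intro j hj0 hjp
    have hjmem : j ∈ (range p).erase 0 := by
      rw [Finset.mem_erase, Finset.mem_range]; exact ⟨by omega, hjp⟩
    have hsp : X j * (Y0 * ∏ i ∈ ((range p).erase 0).erase j, X i) = ε * z ^ p := by
      rw [← hY, ← Finset.mul_prod_erase _ _ hjmem]; ring
    have hc : IsCoprime (X j) (Y0 * ∏ i ∈ ((range p).erase 0).erase j, X i) := by
      apply IsCoprime.mul_right (hcopY j hj0 hjp)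
      apply IsCoprime.prod_right
      intro i hi
      rw [Finset.mem_erase, Finset.mem_erase, Finset.mem_range] at hi
      rcases lt_or_gt_of_ne hi.1 with h | h
      · exact (hcop i j h hjp).symm
      · exact hcop j i h hi.2.2
    exact exists_associated_pow_of_associated_pow_mul (c := z) hc ⟨ε, by rw [hsp]; ring⟩
  obtain ⟨ρ0, e0, he0⟩ := hpowY0
  obtain ⟨ρ1, e1, he1⟩ := hpowX 1 (by omega) (by omega)
  obtain ⟨ρ2, e2, he2⟩ := hpowX (p - 1) (by omega) (by omega)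
  -- the linear relation
  have hrel : X 1 + ζ * X (p - 1) = (1 + ζ) * ((ζ - 1) ^ m * Y0) := by
    rw [← hY0]
    apply mul_left_cancel₀ D.pi_ne_zero
    have h0 := hXdef 0
    rw [pow_zero, one_mul] at h0
    have h11 : ζ * ζ ^ (p - 1) = 1 := by
      rw [← pow_succ', show p - 1 + 1 = p by omega, D.zeta_pow_p]
    calc (ζ - 1) * (X 1 + ζ * X (p - 1))
        = (ζ - 1) * X 1 + ζ * ((ζ - 1) * X (p - 1)) := by ring
      _ = (x + ζ ^ 1 * y) + ζ * (x + ζ ^ (p - 1) * y) := by rw [← hXdef 1, ← hXdef (p - 1)]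
      _ = (1 + ζ) * (x + y) + (ζ * ζ ^ (p - 1) - 1) * y := by ring
      _ = (1 + ζ) * (x + y) := by rw [h11]; ring
      _ = _ := by rw [h0]; ring
  -- units
  obtain ⟨uζ, huζ⟩ := D.isUnit_zeta
  have h1ζ : IsUnit (1 + ζ) := by
    have := D.isUnit_geom (i := 2) (by omega) (by omega)
    simpa [Finset.sum_range_succ] using this
  obtain ⟨u1, hu1⟩ := h1ζ
  set η : Oˣ := e1⁻¹ * uζ * e2 with hη
  set ε' : Oˣ := e1⁻¹ * u1 * e0 with hε'
  have hmain : ρ1 ^ p + η * ρ2 ^ p = ε' * (ζ - 1) ^ m * ρ0 ^ p := by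
    rw [← he1, ← he2, ← he0] at hrel
    have h12 : ρ1 ^ p + (η : O) * ρ2 ^ p = ↑e1⁻¹ * (ρ1 ^ p * ↑e1 + ζ * (ρ2 ^ p * ↑e2)) := by
      rw [hη]; push_cast; rw [huζ]
      have : (↑e1⁻¹ : O) * (ρ1 ^ p * ↑e1 + ζ * (ρ2 ^ p * ↑e2))
          = (↑e1⁻¹ * ↑e1) * ρ1 ^ p + ↑e1⁻¹ * ζ * ↑e2 * ρ2 ^ p := by ring
      rw [this, Units.inv_mul, one_mul]
    rw [h12, hrel, hε']; push_cast; rw [hu1]; ring
  -- η is congruent to an integer mod p
  have hpm : (p : O) ∣ (ζ - 1) ^ m := by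
    apply D.p_dvd_pi_pow
    rw [hm]
    have : 1 ≤ n - 1 := by omega
    calc p - 1 ≤ p * 1 := by omega
      _ ≤ p * (n - 1) := Nat.mul_le_mul_left p this
  obtain ⟨m1, hm1⟩ := D.pow_p_mod_p ρ1
  obtain ⟨m2, hm2⟩ := D.pow_p_mod_p ρ2
  have hρ2 : ¬ (ζ - 1) ∣ ρ2 := by
    intro hd
    apply hXi (p - 1) (by omega) (by omega)
    rw [← he2]
    exact Dvd.dvd.mul_right (dvd_pow hd hp.out.ne_zero) _
  have hρ1 : ¬ (ζ - 1) ∣ ρ1 := by
    intro hd
    apply hXi 1 (by omega) (by omega)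
    rw [← he1]
    exact Dvd.dvd.mul_right (dvd_pow hd hp.out.ne_zero) _
  have hρ0 : ¬ (ζ - 1) ∣ ρ0 := by
    intro hd
    apply hY0pi
    rw [← he0]
    exact Dvd.dvd.mul_right (dvd_pow hd hp.out.ne_zero) _
  have hm2' : ¬ (p : ℤ) ∣ m2 := by
    rw [← D.pi_dvd_int_iff]
    intro hd
    have h13 : (ζ - 1) ∣ ρ2 ^ p := by
      have := dvd_add (D.pi_dvd_p.trans hm2) hd
      simpa using this
    exact hρ2 (D.prime_pi.dvd_of_dvd_pow h13)
  have hsum : (p : O) ∣ (m1 : O) + η * (m2 : O) := by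
    have h14 : (m1 : O) + η * (m2 : O) =
        (ρ1 ^ p + η * ρ2 ^ p) - (ρ1 ^ p - m1) - η * (ρ2 ^ p - m2) := by ring
    rw [h14, hmain]
    exact dvd_sub (dvd_sub (Dvd.dvd.mul_right (Dvd.dvd.mul_left hpm _) _) hm1)
      (Dvd.dvd.mul_left hm2 _)
  have hcop2 : IsCoprime (p : ℤ) m2 :=
    (Prime.coprime_iff_not_dvd (Nat.prime_iff_prime_int.mp hp.out)).2 hm2'
  obtain ⟨a, b, hab⟩ := hcop2
  have hηint : ∃ k : ℤ, (p : O) ∣ (η : O) - (k : O) := by
    refine ⟨-(b * m1), ?_⟩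
    have h15 : (a : O) * (p : O) + (b : O) * (m2 : O) = 1 := by
      have := congrArg (fun t : ℤ => (t : O)) hab
      simpa using this
    have h16 : (η : O) - ((-(b * m1) : ℤ) : O) =
        (p : O) * (η * a) + b * ((m1 : O) + η * (m2 : O)) := by
      push_cast
      linear_combination (-(η : O)) * h15
    rw [h16]
    exact dvd_add (dvd_mul_right _ _) (Dvd.dvd.mul_left hsum _)
  obtain ⟨v, hv⟩ := hK η hηint
  refine ⟨ρ1, v * ρ2, ρ0, ε', hρ1, ?_, hρ0, ?_, ?_⟩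
  · intro hd
    exact hρ2 ((v.isUnit.dvd_mul_left).mp hd)
  · have h18 : IsCoprime (X 1) (X (p - 1)) := hcop 1 (p - 1) (by omega) (by omega)
    rw [← he1, ← he2] at h18
    have h19 : IsCoprime (ρ1 ^ p) (ρ2 ^ p) := by
      have := (isCoprime_mul_unit_right_left e1.isUnit (ρ1 ^ p) (ρ2 ^ p * e2)).1 h18
      exact (isCoprime_mul_unit_right_right e2.isUnit (ρ1 ^ p) (ρ2 ^ p)).1 this
    have h20 : IsCoprime ρ1 ρ2 :=
      (IsCoprime.pow_left_iff hp.out.pos).1 ((IsCoprime.pow_right_iff hp.out.pos).1 h19)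
    exact (isCoprime_mul_unit_left_right v.isUnit ρ1 ρ2).2 h20
  · rw [mul_pow, ← Units.val_pow_eq_pow_val, ← hv, hmain]

end CycData

end Fermat.Agent.FLTRegB
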